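import Fermat.Prelude.Def_FLTPrelim_FreyPackage
import Fermat.Prelude.Def_FLTPrelim_Modularity
import Mathlib

/-!
# The integral Frey model is a semistable integral model of the Frey curve

Elementary facts about `FreyPackage.freyCurveInt`:

* `freyCurveInt_map` : its base change to `ℚ` is `FreyPackage.freyCurve`;
* `freyCurveInt_isIntegralModelOf` : hence it is an integral model of the Frey curve;
* `freyCurveInt_Δ_ne_zero` : its discriminant is nonzero;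
* `freyCurveInt_isSemistableModel` : it is a semistable model.

Consequently (`frey_isModular_of_semistable_modularity`) the modularity of the Frey curve follows from
the modularity of semistable integral Weierstrass curves with nonzero discriminant.
-/

set_option autoImplicit false

namespace Fermat.Agent.S04W

open WeierstrassCurve

variable (P : FreyPackage)

/-- `b` is even. -/
theorem two_dvd_b : (2 : ℤ) ∣ P.b := (ZMod.intCast_zmod_eq_zero_iff_dvd P.b 2).1 P.hb2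

/-- `a ≡ 3 mod 4`. -/
theorem four_dvd_a_sub_three : (4 : ℤ) ∣ P.a - 3 := by
  have h : ((P.a - 3 : ℤ) : ZMod 4) = 0 := by
    push_cast
    rw [P.ha4]
    decide
  exact (ZMod.intCast_zmod_eq_zero_iff_dvd _ 4).1 h

/-- `32 ∣ b ^ p`. -/
theorem thirtytwo_dvd_b_pow : (32 : ℤ) ∣ P.b ^ P.p := by
  have h5 : (2 : ℤ) ^ 5 ∣ P.b ^ 5 := pow_dvd_pow_of_dvd (two_dvd_b P) 5
  have h : P.b ^ 5 ∣ P.b ^ P.p := pow_dvd_pow _ P.hp5
  exact (by norm_num : (32 : ℤ) = 2 ^ 5) ▸ h5.trans h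

/-- `a ^ p ≡ 3 mod 4`, in the form `4 ∣ a ^ p + 1`. -/
theorem four_dvd_a_pow_add_one : (4 : ℤ) ∣ P.a ^ P.p + 1 := by
  obtain ⟨k, hk⟩ := P.hp_odd
  have h1 : ((P.a : ZMod 4)) ^ P.p = 3 := by
    rw [P.ha4, hk, pow_succ, pow_mul]
    have : ((3 : ZMod 4)) ^ 2 = 1 := by decide
    rw [this, one_pow, one_mul]
  have h : ((P.a ^ P.p + 1 : ℤ) : ZMod 4) = 0 := by
    push_cast
    rw [h1]
    decide
  exact (ZMod.intCast_zmod_eq_zero_iff_dvd _ 4).1 h

/-- `4 ∣ b ^ p - 1 - a ^ p`. -/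
theorem four_dvd_a₂_num : (4 : ℤ) ∣ P.b ^ P.p - 1 - P.a ^ P.p := by
  have h1 : (4 : ℤ) ∣ P.b ^ P.p :=
    (by norm_num : (4 : ℤ) ∣ 32).trans (thirtytwo_dvd_b_pow P)
  have h2 := four_dvd_a_pow_add_one P
  have : P.b ^ P.p - 1 - P.a ^ P.p = P.b ^ P.p - (P.a ^ P.p + 1) := by ring
  rw [this]
  exact dvd_sub h1 h2

/-- `16 ∣ -(a ^ p) * b ^ p`. -/
theorem sixteen_dvd_a₄_num : (16 : ℤ) ∣ -(P.a ^ P.p) * (P.b ^ P.p) :=
  Dvd.dvd.mul_left ((by norm_num : (16 : ℤ) ∣ 32).trans (thirtytwo_dvd_b_pow P)) _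

/-- The `a₂`-coefficient of the integral Frey model. -/
theorem four_mul_a₂ : 4 * P.freyCurveInt.a₂ = P.b ^ P.p - 1 - P.a ^ P.p :=
  Int.mul_ediv_cancel' (four_dvd_a₂_num P)

/-- The `a₄`-coefficient of the integral Frey model. -/
theorem sixteen_mul_a₄ : 16 * P.freyCurveInt.a₄ = -(P.a ^ P.p) * (P.b ^ P.p) :=
  Int.mul_ediv_cancel' (sixteen_dvd_a₄_num P)

/-- `32 ∣ -(a ^ p) * b ^ p`, so that `a₄` of the integral Frey model is even. -/
theorem two_dvd_a₄ : (2 : ℤ) ∣ P.freyCurveInt.a₄ := by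
  obtain ⟨m, hm⟩ := thirtytwo_dvd_b_pow P
  have h := sixteen_mul_a₄ P
  rw [hm] at h
  have h' : P.freyCurveInt.a₄ = 2 * (-(P.a ^ P.p) * m) := by linarith
  exact ⟨_, h'⟩

/-- The base change of the integral Frey model to `ℚ` is the Frey curve. -/
theorem freyCurveInt_map : P.freyCurveInt.map (Int.castRingHom ℚ) = P.freyCurve := by
  have h2 := four_mul_a₂ P
  have h4 := sixteen_mul_a₄ P
  have h2' : (4 : ℚ) * ((P.freyCurveInt.a₂ : ℤ) : ℚ) = (P.b : ℚ) ^ P.p - 1 - (P.a : ℚ) ^ P.p := by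
    exact_mod_cast congrArg (Int.cast : ℤ → ℚ) h2
  have h4' : (16 : ℚ) * ((P.freyCurveInt.a₄ : ℤ) : ℚ) = -((P.a : ℚ) ^ P.p) * ((P.b : ℚ) ^ P.p) := by
    exact_mod_cast congrArg (Int.cast : ℤ → ℚ) h4
  ext
  · simp [FreyPackage.freyCurveInt, FreyPackage.freyCurve]
  · change ((P.freyCurveInt.a₂ : ℤ) : ℚ) = ((P.b : ℚ) ^ P.p - 1 - (P.a : ℚ) ^ P.p) / 4
    rw [← h2']; ring
  · simp [FreyPackage.freyCurveInt, FreyPackage.freyCurve]
  · change ((P.freyCurveInt.a₄ : ℤ) : ℚ) = -((P.a : ℚ) ^ P.p) * ((P.b : ℚ) ^ P.p) / 16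
    rw [← h4']; ring
  · simp [FreyPackage.freyCurveInt, FreyPackage.freyCurve]

/-- The integral Frey model is an integral model of the Frey curve. -/
theorem freyCurveInt_isIntegralModelOf : P.freyCurveInt.IsIntegralModelOf P.freyCurve :=
  ⟨1, by rw [one_smul, freyCurveInt_map]⟩

/-- `c₄` of the integral Frey model: `A² + A B + B²` with `A = a ^ p`, `B = b ^ p`. -/
theorem freyCurveInt_c₄ :
    P.freyCurveInt.c₄ = (P.a ^ P.p) ^ 2 + P.a ^ P.p * P.b ^ P.p + (P.b ^ P.p) ^ 2 := by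
  have h2 := four_mul_a₂ P
  have h4 := sixteen_mul_a₄ P
  have e : P.freyCurveInt.c₄ = (1 + 4 * P.freyCurveInt.a₂) ^ 2 - 3 * (16 * P.freyCurveInt.a₄) := by
    simp only [WeierstrassCurve.c₄, WeierstrassCurve.b₂, WeierstrassCurve.b₄]
    simp only [FreyPackage.freyCurveInt]
    ring
  rw [e, h2, h4]
  ring

/-- `Δ` of the integral Frey model: `a₄² (c ^ p)²`. -/
theorem freyCurveInt_Δ :
    P.freyCurveInt.Δ = P.freyCurveInt.a₄ ^ 2 * (P.c ^ P.p) ^ 2 := by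
  have h2 := four_mul_a₂ P
  have h4 := sixteen_mul_a₄ P
  have e : P.freyCurveInt.Δ =
      P.freyCurveInt.a₄ ^ 2 * ((1 + 4 * P.freyCurveInt.a₂) ^ 2 - 4 * (16 * P.freyCurveInt.a₄)) := by
    simp only [WeierstrassCurve.Δ, WeierstrassCurve.b₂, WeierstrassCurve.b₄, WeierstrassCurve.b₆,
      WeierstrassCurve.b₈]
    simp only [FreyPackage.freyCurveInt]
    ring
  rw [e, h2, h4, ← P.hFLT]
  ring

/-- `a₄` of the integral Frey model is nonzero. -/
theorem freyCurveInt_a₄_ne_zero : P.freyCurveInt.a₄ ≠ 0 := by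
  intro h
  have h4 := sixteen_mul_a₄ P
  rw [h, mul_zero] at h4
  have ha : P.a ^ P.p ≠ 0 := pow_ne_zero _ P.ha0
  have hb : P.b ^ P.p ≠ 0 := pow_ne_zero _ P.hb0
  exact mul_ne_zero (neg_ne_zero.mpr ha) hb h4.symm

/-- The discriminant of the integral Frey model is nonzero. -/
theorem freyCurveInt_Δ_ne_zero : P.freyCurveInt.Δ ≠ 0 := by
  rw [freyCurveInt_Δ]
  exact mul_ne_zero (pow_ne_zero _ (freyCurveInt_a₄_ne_zero P))
    (pow_ne_zero _ (pow_ne_zero _ P.hc0))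

/-- A prime cannot divide two integers with `gcd = 1`. -/
theorem not_prime_dvd_both {x y : ℤ} (hxy : gcd x y = 1) {q : ℕ} (hq : q.Prime)
    (hx : (q : ℤ) ∣ x) (hy : (q : ℤ) ∣ y) : False := by
  have h : (q : ℤ) ∣ gcd x y := dvd_gcd hx hy
  rw [hxy] at h
  have hq1 : (q : ℤ) = 1 ∨ (q : ℤ) = -1 := Int.isUnit_iff.mp (isUnit_of_dvd_one h)
  have hq2 := hq.two_le
  rcases hq1 with h1 | h1 <;> omega

/-- The integral Frey model is semistable. -/
theorem freyCurveInt_isSemistableModel : P.freyCurveInt.IsSemistableModel := by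
  intro q hq hqΔ hqc₄
  have hqp : Prime (q : ℤ) := Nat.prime_iff_prime_int.mp hq
  rw [freyCurveInt_c₄] at hqc₄
  rw [freyCurveInt_Δ] at hqΔ
  -- `q ∣ a₄` or `q ∣ c`
  rcases hqp.dvd_or_dvd hqΔ with h | h
  · -- `q ∣ a₄`, hence `q ∣ a` or `q ∣ b`
    have h1 : (q : ℤ) ∣ P.freyCurveInt.a₄ := hqp.dvd_of_dvd_pow h
    have h2 : (q : ℤ) ∣ -(P.a ^ P.p) * (P.b ^ P.p) := by
      rw [← sixteen_mul_a₄ P]; exact Dvd.dvd.mul_left h1 _
    rcases hqp.dvd_or_dvd h2 with h3 | h3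
    · -- `q ∣ a`
      have hA : (q : ℤ) ∣ P.a ^ P.p := (dvd_neg).mp h3
      have ha : (q : ℤ) ∣ P.a := hqp.dvd_of_dvd_pow hA
      have hB2 : (q : ℤ) ∣ (P.b ^ P.p) ^ 2 := by
        have e : (P.b ^ P.p) ^ 2 = ((P.a ^ P.p) ^ 2 + P.a ^ P.p * P.b ^ P.p + (P.b ^ P.p) ^ 2)
            - P.a ^ P.p * (P.a ^ P.p + P.b ^ P.p) := by ring
        rw [e]
        exact dvd_sub hqc₄ (Dvd.dvd.mul_right hA _)
      have hb : (q : ℤ) ∣ P.b := hqp.dvd_of_dvd_pow (hqp.dvd_of_dvd_pow hB2)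
      exact not_prime_dvd_both P.hgcdab hq ha hb
    · -- `q ∣ b`
      have hB : (q : ℤ) ∣ P.b ^ P.p := h3
      have hb : (q : ℤ) ∣ P.b := hqp.dvd_of_dvd_pow hB
      have hA2 : (q : ℤ) ∣ (P.a ^ P.p) ^ 2 := by
        have e : (P.a ^ P.p) ^ 2 = ((P.a ^ P.p) ^ 2 + P.a ^ P.p * P.b ^ P.p + (P.b ^ P.p) ^ 2)
            - P.b ^ P.p * (P.a ^ P.p + P.b ^ P.p) := by ring
        rw [e]
        exact dvd_sub hqc₄ (Dvd.dvd.mul_right hB _)
      have ha : (q : ℤ) ∣ P.a := hqp.dvd_of_dvd_pow (hqp.dvd_of_dvd_pow hA2)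
      exact not_prime_dvd_both P.hgcdab hq ha hb
  · -- `q ∣ c`
    have hC : (q : ℤ) ∣ P.c ^ P.p := hqp.dvd_of_dvd_pow h
    have hc : (q : ℤ) ∣ P.c := hqp.dvd_of_dvd_pow hC
    have hAB : (q : ℤ) ∣ P.a ^ P.p * P.b ^ P.p := by
      have e : P.a ^ P.p * P.b ^ P.p = (P.c ^ P.p) ^ 2
          - ((P.a ^ P.p) ^ 2 + P.a ^ P.p * P.b ^ P.p + (P.b ^ P.p) ^ 2) := by
        rw [← P.hFLT]; ring
      rw [e]
      exact dvd_sub (Dvd.dvd.mul_left hC _ |> fun h => by simpa [sq] using h) hqc₄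
    rcases hqp.dvd_or_dvd hAB with h3 | h3
    · exact not_prime_dvd_both P.hgcdac hq (hqp.dvd_of_dvd_pow h3) hc
    · exact not_prime_dvd_both P.hgcdbc hq (hqp.dvd_of_dvd_pow h3) hc

/-- **Wiring** `S60 ⟹ S04`: modularity of semistable integral Weierstrass curves with nonzero
discriminant implies modularity of the Frey curve. -/
theorem frey_isModular_of_semistable_modularity
    (h60 : ∀ W : WeierstrassCurve ℤ, W.Δ ≠ 0 → W.IsSemistableModel →
      (W.map (Int.castRingHom ℚ)).IsModular)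
    (P : FreyPackage) : P.freyCurve.IsModular := by
  have h := h60 P.freyCurveInt (freyCurveInt_Δ_ne_zero P) (freyCurveInt_isSemistableModel P)
  rwa [freyCurveInt_map] at h

end Fermat.Agent.S04W
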